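import Fermat.Agent.HensleyRichards.Expansion
import Fermat.Agent.RankinGaps.Gaps

/-!
# Dense admissible sets

In `[0, 2 m]` keep `m ± q` for the primes `y < q ≤ m`. The class of `m` is free modulo `p ≤ y`,
and modulo a larger `p` a class is free by a run of consecutive numbers which all have a prime
factor `≤ z ≤ y`, as there are only `O(m / y)` terms of that class in the interval. The set has
`2 (π m - π y)` elements, more than `π (2 m)` by the second term of the expansion of `π`.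
-/

set_option autoImplicit false

noncomputable section

namespace FA.HensleyRichards

open Filter Real Finset
open scoped Topology

/-- `m ± q` for the primes `y < q ≤ m`. -/
def admissibleSet (m y : ℕ) : Finset ℕ :=
  (Nat.primesLE m \ Nat.primesLE y).image (fun q => m + q) ∪
    (Nat.primesLE m \ Nat.primesLE y).image fun q => m - q

theorem mem_admissibleSet {m y h : ℕ} (hh : h ∈ admissibleSet m y) :
    ∃ q : ℕ, q.Prime ∧ y < q ∧ q ≤ m ∧ (h = m + q ∨ h + q = m) := by
  simp only [admissibleSet, mem_union, mem_image, Finset.mem_sdiff, Nat.mem_primesLE] at hh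
  rcases hh with ⟨q, ⟨⟨hqm, hq⟩, hqy⟩, rfl⟩ | ⟨q, ⟨⟨hqm, hq⟩, hqy⟩, rfl⟩
  · exact ⟨q, hq, not_le.1 fun hle => hqy ⟨hle, hq⟩, hqm, Or.inl rfl⟩
  · exact ⟨q, hq, not_le.1 fun hle => hqy ⟨hle, hq⟩, hqm, Or.inr (Nat.sub_add_cancel hqm)⟩

theorem card_admissibleSet {m y : ℕ} (hy : y ≤ m) :
    2 * Nat.primeCounting m = #(admissibleSet m y) + 2 * Nat.primeCounting y := by
  have hle : ∀ q ∈ Nat.primesLE m \ Nat.primesLE y, q ≤ m ∧ 0 < q := fun q hq => by
    rw [Finset.mem_sdiff, Nat.mem_primesLE] at hq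
    exact ⟨hq.1.1, hq.1.2.pos⟩
  have hdis : Disjoint ((Nat.primesLE m \ Nat.primesLE y).image fun q => m + q)
      ((Nat.primesLE m \ Nat.primesLE y).image fun q => m - q) := by
    simp only [disjoint_left, mem_image]
    rintro _ ⟨q, hq, rfl⟩ ⟨r, hr, hrq⟩
    have := hle q hq
    omega
  have hsub := Nat.primesLE_mono hy
  rw [admissibleSet, card_union_of_disjoint hdis,
    card_image_of_injective _ (add_right_injective m),
    card_image_of_injOn (fun q hq r hr h => by
      have := hle q hq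
      have := hle r hr
      omega),
    card_sdiff_of_subset hsub, Nat.primesLE_card_eq_primeCounting,
    Nat.primesLE_card_eq_primeCounting]
  have := Nat.monotone_primeCounting hy
  omega

theorem admissibleSet_subset (m y : ℕ) : admissibleSet m y ⊆ range (2 * m + 1) := fun h hh => by
  obtain ⟨q, -, -, hqm, hh | hh⟩ := mem_admissibleSet hh <;> rw [mem_range] <;> omega

/-- **Admissibility**, from a run of `2 K + 1` numbers each with a prime factor `≤ z`. -/
theorem admissibleSet_avoids {m y z n₀ K : ℕ} (hz : z ≤ y)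
    (hrun : ∀ i ∈ Icc 1 (2 * K + 1), ∃ s ≤ z, s.Prime ∧ s ∣ n₀ + i)
    (hbig : m + primorial z ≤ (K + 1) * (y + 1)) {p : ℕ} (hp : p.Prime) :
    ∃ a : ℕ, ∀ h ∈ admissibleSet m y, ¬ h ≡ a [MOD p] := by
  rcases le_or_gt p y with hpy | hpy
  · refine ⟨m, fun h hh hmod => ?_⟩
    obtain ⟨q, hq, hyq, hqm, hh | hh⟩ := mem_admissibleSet hh
    · subst hh
      have : p ∣ q := Nat.modEq_zero_iff_dvd.1 (Nat.ModEq.add_left_cancel' m hmod)
      rw [(Nat.prime_dvd_prime_iff_eq hp hq).1 this] at hpy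
      omega
    · subst hh
      have : p ∣ q :=
        Nat.modEq_zero_iff_dvd.1 (Nat.ModEq.add_left_cancel' h (hmod.symm.trans (by rfl)))
      rw [(Nat.prime_dvd_prime_iff_eq hp hq).1 this] at hpy
      omega
  obtain ⟨r, hr⟩ : ∃ r, r = p * (n₀ + K + 1) % primorial z := ⟨_, rfl⟩
  have hrP : r < primorial z := hr ▸ Nat.mod_lt _ (primorial_pos z)
  refine ⟨m + r, fun h hh hmod => ?_⟩
  obtain ⟨q, hq, hyq, hqm, hh⟩ := mem_admissibleSet hh
  obtain ⟨j, hj⟩ : ∃ j : ℤ, (h : ℤ) - (m + r) = p * j := by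
    have := (Int.natCast_modEq_iff.2 hmod.symm).dvd
    push_cast at this
    exact this
  have hp' : (y : ℤ) + 1 ≤ p := by omega
  have hbig' : (m : ℤ) + primorial z ≤ (K + 1) * (y + 1) := by exact_mod_cast hbig
  have hh' : (h : ℤ) = m + q ∨ (h : ℤ) = m - q := by omega
  have hjK : -(K : ℤ) ≤ j ∧ j ≤ K := by
    constructor <;> by_contra hcon
    · have h1 : (p : ℤ) * j ≤ -((K + 1) * (y + 1)) := by nlinarith
      rcases hh' with h2 | h2 <;> omega
    · have h1 : ((K : ℤ) + 1) * (y + 1) ≤ p * j := by nlinarith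
      rcases hh' with h2 | h2 <;> omega
  obtain ⟨i, hi⟩ : ∃ i : ℕ, (i : ℤ) = K + 1 + j := ⟨(K + 1 + j).toNat, by omega⟩
  obtain ⟨s, hsz, hs, hsi⟩ := hrun i (mem_Icc.2 ⟨by omega, by omega⟩)
  have hsP : (s : ℤ) ∣ primorial z := Int.natCast_dvd_natCast.2
    (dvd_prod_of_mem _ (mem_filter.2 ⟨mem_range.2 (by omega), hs⟩))
  have h1 : (s : ℤ) ∣ (n₀ : ℤ) + i := by exact_mod_cast hsi
  have h2 : (primorial z : ℤ) ∣ (p : ℤ) * (n₀ + K + 1) - r := by
    have h := Nat.mod_modEq (p * (n₀ + K + 1)) (primorial z)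
    rw [← hr] at h
    simpa using (Int.natCast_modEq_iff.2 h).dvd
  have h3 : (s : ℤ) ∣ (h : ℤ) - m := by
    have h4 := dvd_sub (h1.mul_left (p : ℤ)) (hsP.trans h2)
    rw [hi] at h4
    have h5 : (h : ℤ) - m = p * (n₀ + (K + 1 + j)) - (p * (n₀ + K + 1) - r) := by
      linear_combination hj
    exact h5 ▸ h4
  have h6 : s ∣ q := by
    refine Int.natCast_dvd_natCast.1 ?_
    rcases hh' with h2 | h2
    · rwa [h2, add_sub_cancel_left] at h3
    · rw [h2, sub_sub_cancel_left, dvd_neg] at h3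
      exact h3
  rw [(Nat.prime_dvd_prime_iff_eq hs hq).1 h6] at hsz
  omega

/-- An all-prime translate of a subset of `[0, x)` sits above `π n`. -/
theorem primeCounting_add_card_le {n x : ℕ} {H : Finset ℕ} (hH : H ⊆ range x)
    (hn : ∀ h ∈ H, (n + 1 + h).Prime) :
    Nat.primeCounting n + #H ≤ Nat.primeCounting (n + x) := by
  rw [← Nat.primesLE_card_eq_primeCounting n, ← Nat.primesLE_card_eq_primeCounting (n + x),
    ← card_image_of_injective H (add_right_injective (n + 1)), ← card_union_of_disjoint]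
  · refine card_le_card (union_subset (Nat.primesLE_mono (by omega)) fun p hp => ?_)
    obtain ⟨h, hh, rfl⟩ := mem_image.1 hp
    have := mem_range.1 (hH hh)
    exact Nat.mem_primesLE.2 ⟨by omega, hn h hh⟩
  · simp only [disjoint_left, mem_image, Nat.mem_primesLE]
    rintro p ⟨hp, -⟩ ⟨h, -, rfl⟩
    omega

theorem tendsto_rate_div : Tendsto (fun t => RankinGaps.rate t / t) atTop atTop := by
  refine tendsto_atTop_mono' atTop ?_ ((tendsto_exp_div_pow_atTop 2).comp
    (tendsto_log_atTop.comp tendsto_log_atTop))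
  filter_upwards [tendsto_log_atTop.eventually_gt_atTop 0,
    (tendsto_log_atTop.comp tendsto_log_atTop).eventually_ge_atTop (exp 1),
    eventually_gt_atTop 0] with t hL hLL ht
  simp only [Function.comp_apply] at hLL ⊢
  have h0 : 0 < log (log t) := (exp_pos 1).trans_le hLL
  have h1 : 1 ≤ log (log (log t)) := by
    rw [← log_exp 1]
    exact log_le_log (exp_pos 1) hLL
  rw [exp_log hL, RankinGaps.rate]
  have h2 : t * log t * log (log (log t)) / log (log t) ^ 2 / t =
      log t / log (log t) ^ 2 * log (log (log t)) := by field_simp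
  rw [h2]
  exact le_mul_of_one_le_right (by positivity) h1

/-- `2 π(t / 2) - π t` is asymptotic to `log 2 · t / (log t) ^ 2`. -/
theorem tendsto_two_mul_primeCounting_half :
    Tendsto (fun t : ℝ => (2 * (Nat.primeCounting ⌊t / 2⌋₊ : ℝ) - Nat.primeCounting ⌊t⌋₊) *
      log t ^ 2 / t) atTop (𝓝 (log 2)) := by
  obtain ⟨C, hC0, hC⟩ := (isBigO_primeCounting_sub_liSum 2).exists_nonneg
  have hh : Tendsto (fun t : ℝ => t / 2) atTop atTop := tendsto_id.atTop_div_const two_pos
  obtain ⟨l, hl⟩ : ∃ l : ℝ, l = log 2 := ⟨_, rfl⟩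
  have hmain : Tendsto (fun L : ℝ => l * (L / (L - l)) + ((L / (L - l)) ^ 2 - 1)) atTop
      (𝓝 l) := by
    have h1 : Tendsto (fun L : ℝ => L / (L - l)) atTop (𝓝 1) := by
      have h2 : Tendsto (fun L : ℝ => 1 / (1 - l * L⁻¹)) atTop (𝓝 (1 / (1 - l * 0))) :=
        tendsto_const_nhds.div (tendsto_const_nhds.sub (tendsto_inv_atTop_zero.const_mul l))
          (by norm_num)
      rw [mul_zero, sub_zero, div_one] at h2
      refine h2.congr' ?_
      filter_upwards [eventually_gt_atTop 0, eventually_gt_atTop l] with L hL hLl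
      field_simp
    simpa using (h1.const_mul l).add ((h1.pow 2).sub_const 1)
  rw [← hl]
  refine (hmain.comp tendsto_log_atTop).congr_dist (squeeze_zero' (Eventually.of_forall fun _ =>
    dist_nonneg) ?_ (tendsto_log_atTop.inv_tendsto_atTop.const_mul (9 * C) |>.trans_eq
      (by rw [mul_zero])))
  filter_upwards [hC.bound, hh.eventually hC.bound,
    tendsto_log_atTop.eventually_ge_atTop (2 * l + 1), eventually_gt_atTop 0] with t h1 h2 hL ht
  have hl0 : 0 < l := hl ▸ log_pos one_lt_two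
  have hlog : log (t / 2) = log t - l := by rw [log_div ht.ne' two_ne_zero, hl]
  have hA : 0 < log t - l := by linarith
  simp only [Function.comp_apply, Real.dist_eq, Pi.inv_apply] at h1 h2 ⊢
  rw [norm_eq_abs, norm_of_nonneg (div_nonneg ht.le (pow_nonneg (by linarith) _))] at h1
  rw [norm_eq_abs,
    norm_of_nonneg (div_nonneg (by linarith) (pow_nonneg (by rw [hlog]; linarith) _)), hlog] at h2
  obtain ⟨e₁, he₁⟩ : ∃ e, (Nat.primeCounting ⌊t⌋₊ : ℝ) = liSum 2 t + e :=
    ⟨_, (add_sub_cancel _ _).symm⟩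
  obtain ⟨e₂, he₂⟩ : ∃ e, (Nat.primeCounting ⌊t / 2⌋₊ : ℝ) = liSum 2 (t / 2) + e :=
    ⟨_, (add_sub_cancel _ _).symm⟩
  rw [he₁, add_sub_cancel_left] at h1
  rw [he₂, add_sub_cancel_left] at h2
  rw [he₁, he₂, liSum, liSum, hlog]
  simp only [sum_range_succ, sum_range_zero, zero_add, Nat.factorial_zero, Nat.factorial_one,
    Nat.cast_one, pow_one]
  have heq : l * (log t / (log t - l)) + ((log t / (log t - l)) ^ 2 - 1) -
      (2 * (t / 2 * (1 / (log t - l) + 1 / (log t - l) ^ (1 + 1)) + e₂) -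
        (t * (1 / log t + 1 / log t ^ (1 + 1)) + e₁)) * log t ^ 2 / t =
      e₁ * log t ^ 2 / t - 2 * (e₂ * log t ^ 2 / t) := by
    have : log t ≠ 0 := by linarith
    field_simp
    ring
  rw [heq]
  refine (abs_sub _ _).trans ?_
  have h3 : (log t - l)⁻¹ ≤ 2 * (log t)⁻¹ := by
    rw [← div_eq_mul_inv, inv_le_iff_one_le_mul₀ hA, div_mul_eq_mul_div, le_div_iff₀ (by linarith)]
    linarith
  have hLpos : 0 < log t := by linarith
  have hb1 : |e₁ * log t ^ 2 / t| ≤ C * (log t)⁻¹ := by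
    rw [abs_div, abs_mul, abs_of_pos ht, abs_of_nonneg (sq_nonneg (log t))]
    calc |e₁| * log t ^ 2 / t ≤ C * (t / log t ^ (2 + 1)) * log t ^ 2 / t := by gcongr
      _ = C * (log t)⁻¹ := by field_simp
  have hb2 : |2 * (e₂ * log t ^ 2 / t)| ≤ 8 * C * (log t)⁻¹ := by
    rw [abs_mul, abs_two, abs_div, abs_mul, abs_of_pos ht, abs_of_nonneg (sq_nonneg (log t))]
    calc 2 * (|e₂| * log t ^ 2 / t)
        ≤ 2 * (C * (t / 2 / (log t - l) ^ (2 + 1)) * log t ^ 2 / t) := by gcongr
      _ = C * (log t - l)⁻¹ ^ 3 * log t ^ 2 := by field_simp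
      _ ≤ C * (2 * (log t)⁻¹) ^ 3 * log t ^ 2 := by gcongr
      _ = 8 * C * (log t)⁻¹ := by field_simp; ring
  calc |e₁ * log t ^ 2 / t| + |2 * (e₂ * log t ^ 2 / t)|
      ≤ C * (log t)⁻¹ + 8 * C * (log t)⁻¹ := add_le_add hb1 hb2
    _ = 9 * C * (log t)⁻¹ := by ring

/-- `π t ≤ 2 t / log t`. -/
theorem eventually_primeCounting_le :
    ∀ᶠ t : ℝ in atTop, (Nat.primeCounting ⌊t⌋₊ : ℝ) ≤ 2 * t / log t := by
  obtain ⟨C, hC0, hC⟩ := (isBigO_primeCounting_sub_liSum 1).exists_nonneg
  filter_upwards [hC.bound, tendsto_log_atTop.eventually_ge_atTop (max 1 C),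
    eventually_gt_atTop 0] with t h hL ht
  rw [max_le_iff] at hL
  rw [norm_eq_abs, norm_of_nonneg (div_nonneg ht.le (pow_nonneg (by linarith) _)), abs_le, liSum,
    sum_range_one, Nat.factorial_zero, Nat.cast_one] at h
  simp only [zero_add, pow_one] at h
  have h1 : C * (t / log t ^ (1 + 1)) ≤ t / log t := by
    rw [mul_div, div_le_div_iff₀ (pow_pos (by linarith) _) (by linarith), pow_succ, pow_one]
    nlinarith [mul_nonneg (mul_nonneg (sub_nonneg.2 hL.2) ht.le) (show 0 ≤ log t by linarith)]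
  have h2 : t * (1 / log t) = t / log t := mul_one_div _ _
  linarith [h.2, mul_div_assoc 2 t (log t)]

/-- A run long enough for the admissibility argument, below the height `x`. -/
theorem eventually_run {ε : ℝ} (hε : 0 < ε) : ∀ᶠ x : ℝ in atTop, ∃ z n₀ K : ℕ,
    (z : ℝ) ≤ ε * (x / log x) ∧ (primorial z : ℝ) ≤ x ∧
      2 * log x / ε ≤ (K : ℝ) + 1 ∧
      ∀ i ∈ Icc 1 (2 * K + 1), ∃ s ≤ z, s.Prime ∧ s ∣ n₀ + i := by
  obtain ⟨c, hc, hrun⟩ := RankinGaps.exists_run
  have hz : Tendsto (fun x : ℝ => ⌊log x / 2⌋₊) atTop atTop :=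
    tendsto_nat_floor_atTop.comp (tendsto_log_atTop.atTop_div_const two_pos)
  have hlo : ∀ᶠ x : ℝ in atTop, log x ^ 2 ≤ ε * x := by
    filter_upwards [(isLittleO_pow_log_id_atTop (n := 2)).def hε, eventually_gt_atTop 0] with x h hx
    rwa [norm_of_nonneg (sq_nonneg (log x)), id_eq, norm_of_nonneg hx.le] at h
  filter_upwards [hz.eventually hrun, hlo, eventually_gt_atTop 1,
    (tendsto_rate_div.comp (tendsto_natCast_atTop_atTop.comp hz)).eventually_ge_atTop
      (16 / (ε * c)),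
    tendsto_log_atTop.eventually_ge_atTop 4] with x hx hl hx1 hr hL
  obtain ⟨n₀, H, hH, -, -, hrun⟩ := hx
  simp only [Function.comp_apply] at hr
  obtain ⟨z, hzdef⟩ : ∃ z, z = ⌊log x / 2⌋₊ := ⟨_, rfl⟩
  rw [← hzdef] at hH hrun hr
  have hz1 : (z : ℝ) ≤ log x / 2 := hzdef ▸ Nat.floor_le (by linarith)
  have hz2 : log x / 4 ≤ z := by
    have := Nat.lt_floor_add_one (log x / 2)
    rw [← hzdef] at this
    linarith
  have hz0 : (0 : ℝ) < z := by linarith
  rw [le_div_iff₀ hz0] at hr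
  have hH' : 4 * log x / ε ≤ H := by
    calc 4 * log x / ε = c * (16 / (ε * c) * (log x / 4)) := by field_simp; ring
      _ ≤ c * (16 / (ε * c) * z) := by gcongr
      _ ≤ c * RankinGaps.rate z := by gcongr
      _ ≤ H := hH
  have hH1 : 1 ≤ H := by
    have : (0 : ℝ) < H := lt_of_lt_of_le (by positivity) hH'
    exact_mod_cast this
  refine ⟨z, n₀, (H - 1) / 2, hz1.trans ?_, ?_, ?_, fun i hi => hrun i ?_⟩
  · rw [← mul_div_assoc, le_div_iff₀ (by linarith)]
    nlinarith
  · calc (primorial z : ℝ) ≤ (4 : ℝ) ^ z := by exact_mod_cast primorial_le_four_pow z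
      _ = exp ((z : ℝ) * log 4) := by rw [exp_nat_mul, exp_log (by norm_num)]
      _ ≤ exp (log x) := by
          refine exp_le_exp.2 ?_
          have h4 : log 4 ≤ 2 := by
            rw [show (4 : ℝ) = 2 ^ 2 by norm_num, log_pow]
            have := log_two_lt_d9
            push_cast
            linarith
          nlinarith
      _ = x := exp_log (by linarith)
  · have h2 : H ≤ 2 * ((H - 1) / 2) + 2 := by omega
    have h3 : (H : ℝ) ≤ 2 * (((H - 1) / 2 : ℕ) : ℝ) + 2 := by exact_mod_cast h2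
    have h4 : 2 * log x / ε * 2 = 4 * log x / ε := by ring
    linarith
  · rw [mem_Icc] at hi ⊢
    omega

/-- **Hensley and Richards: admissible sets denser than the primes.** -/
theorem eventually_exists_admissible {ε : ℝ} (hε : 0 < ε) : ∀ᶠ x : ℕ in atTop,
    ∃ H : Finset ℕ, H ⊆ range x ∧
      (∀ p : ℕ, p.Prime → ∃ a : ℕ, ∀ h ∈ H, ¬ h ≡ a [MOD p]) ∧
      (Nat.primeCounting x : ℝ) + (log 2 - ε) * (x / log x ^ 2) ≤ #H := by
  obtain ⟨δ, hδ⟩ : ∃ δ : ℝ, δ = min (ε / 32) (1 / 8) := ⟨_, rfl⟩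
  have hδ0 : 0 < δ := hδ ▸ lt_min (by linarith) (by norm_num)
  have hδε : δ ≤ ε / 32 := hδ ▸ min_le_left _ _
  have hδ1 : δ ≤ 1 / 8 := hδ ▸ min_le_right _ _
  have hcast := tendsto_natCast_atTop_atTop (R := ℝ)
  have hy : Tendsto (fun x : ℝ => δ * (x / log x)) atTop atTop := by
    refine Tendsto.const_mul_atTop hδ0 ?_
    refine tendsto_atTop_mono' atTop ?_ (tendsto_sqrt_atTop)
    filter_upwards [(isLittleO_log_rpow_atTop (show (0 : ℝ) < 1 / 2 by norm_num)).def one_pos,
      eventually_gt_atTop 1] with x hx hx1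
    rw [norm_of_nonneg (log_pos hx1).le, norm_of_nonneg (by positivity), one_mul,
      ← sqrt_eq_rpow] at hx
    rw [le_div_iff₀ (log_pos hx1)]
    nlinarith [mul_self_sqrt (show (0 : ℝ) ≤ x by linarith), sqrt_nonneg x]
  have hsmall : ∀ᶠ x : ℝ in atTop, log x / 2 ≤ log (δ * (x / log x)) ∧
      2 * log x ^ 2 ≤ ε / 4 * x := by
    filter_upwards [(isLittleO_pow_log_id_atTop (n := 2)).def
      (show 0 < min (δ ^ 2) (ε / 8) by positivity), eventually_gt_atTop 1] with x hx hx1
    rw [norm_of_nonneg (sq_nonneg (log x)), id_eq, norm_of_nonneg (by linarith)] at hx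
    refine ⟨?_, ?_⟩
    · have h1 : log x ^ 2 ≤ δ ^ 2 * x := hx.trans (by gcongr; exact min_le_left _ _)
      have hL := log_pos hx1
      have h2 : x ≤ (δ * (x / log x)) ^ 2 := by
        rw [mul_pow, div_pow, ← mul_div_assoc, le_div_iff₀ (by positivity)]
        nlinarith
      have h3 := log_le_log (by linarith) h2
      rw [log_pow] at h3
      push_cast at h3
      linarith
    · have : log x ^ 2 ≤ ε / 8 * x := hx.trans (by gcongr; exact min_le_right _ _)
      linarith
  filter_upwards [hcast.eventually (eventually_run hδ0),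
    hcast.eventually (tendsto_two_mul_primeCounting_half.eventually
      (eventually_gt_nhds (show log 2 - ε / 2 < log 2 by linarith))),
    hcast.eventually (hy.eventually eventually_primeCounting_le), hcast.eventually hsmall,
    hcast.eventually (tendsto_log_atTop.eventually_ge_atTop 1), eventually_ge_atTop 8]
    with x hrun hhalf hπy hsm hL hx8
  obtain ⟨z, n₀, K, hz, hP, hK, hrun⟩ := hrun
  obtain ⟨m, hm⟩ : ∃ m, m = (x - 1) / 2 := ⟨_, rfl⟩
  obtain ⟨y, hydef⟩ : ∃ y, y = ⌊δ * (x / log x)⌋₊ := ⟨_, rfl⟩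
  have hx0 : (8 : ℝ) ≤ x := by exact_mod_cast hx8
  have hy0 : 0 ≤ δ * ((x : ℝ) / log x) := by positivity
  have hym : y ≤ m := by
    have h1 : (y : ℝ) ≤ δ * (x / log x) := hydef ▸ Nat.floor_le hy0
    have h2 : δ * ((x : ℝ) / log x) ≤ 1 / 8 * x :=
      mul_le_mul hδ1 (div_le_self (by linarith) hL) (by positivity) (by norm_num)
    have h3 : 8 * y ≤ x := by
      have : (8 : ℝ) * y ≤ x := by linarith
      exact_mod_cast this
    omega
  refine ⟨admissibleSet m y, (admissibleSet_subset m y).trans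
    (range_subset_range.2 (by omega)), fun p hp => admissibleSet_avoids
      (hydef ▸ Nat.le_floor hz) hrun ?_ hp, ?_⟩
  · have h1 : δ * ((x : ℝ) / log x) < y + 1 := hydef ▸ Nat.lt_floor_add_one _
    have h2 : (m : ℝ) ≤ x := by exact_mod_cast (show m ≤ x by omega)
    have h3 : (2 : ℝ) * x ≤ (K + 1) * (y + 1) := by
      calc (2 : ℝ) * x = 2 * log x / δ * (δ * (x / log x)) := by field_simp
        _ ≤ (K + 1) * (y + 1) := mul_le_mul hK h1.le hy0 (by positivity)
    have : ((m + primorial z : ℕ) : ℝ) ≤ ((K + 1) * (y + 1) : ℕ) := by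
      push_cast
      linarith
    exact_mod_cast this
  have hcard : (2 : ℝ) * Nat.primeCounting m =
      (#(admissibleSet m y) : ℝ) + 2 * Nat.primeCounting y := by
    exact_mod_cast card_admissibleSet hym
  have hm' : Nat.primeCounting ⌊(x : ℝ) / 2⌋₊ ≤ Nat.primeCounting m + 1 := by
    rw [Nat.floor_div_ofNat, Nat.floor_natCast]
    refine (Nat.monotone_primeCounting (show x / 2 ≤ m + 1 by omega)).trans ?_
    simp only [Nat.primeCounting, Nat.primeCounting', Nat.count_succ]
    split_ifs <;> omega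
  have hm'' : (Nat.primeCounting ⌊(x : ℝ) / 2⌋₊ : ℝ) ≤ Nat.primeCounting m + 1 := by
    exact_mod_cast hm'
  rw [Nat.floor_natCast, lt_div_iff₀ (by linarith)] at hhalf
  rw [← hydef] at hπy
  have hL2 : 0 < log (x : ℝ) ^ 2 := by positivity
  have h1 : (log 2 - ε / 2) * ((x : ℝ) / log x ^ 2) ≤
      2 * (Nat.primeCounting ⌊(x : ℝ) / 2⌋₊ : ℝ) - Nat.primeCounting x := by
    rw [← mul_div_assoc, div_le_iff₀ hL2]
    exact hhalf.le
  have h2 : (Nat.primeCounting y : ℝ) ≤ ε / 8 * (x / log x ^ 2) := by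
    calc (Nat.primeCounting y : ℝ) ≤ 2 * (δ * (x / log x)) / log (δ * (x / log x)) := hπy
      _ ≤ 2 * (δ * (x / log x)) / (log x / 2) :=
          div_le_div_of_nonneg_left (by positivity) (by linarith) hsm.1
      _ = 4 * δ * (x / log x ^ 2) := by field_simp; ring
      _ ≤ ε / 8 * (x / log x ^ 2) := by gcongr; linarith
  have h3 : (2 : ℝ) ≤ ε / 4 * (x / log x ^ 2) := by
    rw [← mul_div_assoc, le_div_iff₀ hL2]
    exact hsm.2
  linarith

end FA.HensleyRichards
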