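import Fermat.Agent.Root.SummaryDelaValleePoussin

/-!
# The asymptotic expansion of the prime counting function

`π x = x ∑_{k < N} k! / (log x) ^ (k + 1) + O(x / (log x) ^ (N + 1))`, from the prime number
theorem with the classical error term.
-/

set_option autoImplicit false

noncomputable section

namespace FA.HensleyRichards

open Filter Real Asymptotics Set intervalIntegral MeasureTheory
open scoped Topology

/-- The first `N` terms of the asymptotic series of the logarithmic integral. -/
def liSum (N : ℕ) (x : ℝ) : ℝ :=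
  x * ∑ k ∈ Finset.range N, (k.factorial : ℝ) / log x ^ (k + 1)

theorem hasDerivAt_div_log_pow {x : ℝ} (hx : 1 < x) (m : ℕ) :
    HasDerivAt (fun t => t / log t ^ m) (1 / log x ^ m - m / log x ^ (m + 1)) x := by
  have hL : log x ≠ 0 := (log_pos hx).ne'
  have hx0 : x ≠ 0 := by positivity
  have h := (hasDerivAt_id x).fun_div ((hasDerivAt_log hx0).fun_pow m) (pow_ne_zero m hL)
  refine h.congr_deriv ?_
  rcases m with _ | m
  · simp
  · simp only [id_eq, Nat.add_sub_cancel]
    field_simp
    ring

theorem hasDerivAt_liSum {x : ℝ} (hx : 1 < x) (N : ℕ) :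
    HasDerivAt (liSum N) (1 / log x - N.factorial / log x ^ (N + 1)) x := by
  induction N with
  | zero =>
    have : liSum 0 = fun _ => (0 : ℝ) := funext fun t => by simp [liSum]
    rw [this]
    simpa using hasDerivAt_const x (0 : ℝ)
  | succ N ih =>
    have hsucc : liSum (N + 1) = fun t => liSum N t + N.factorial * (t / log t ^ (N + 1)) :=
      funext fun t => by
        rw [liSum, liSum, Finset.sum_range_succ]
        ring
    rw [hsucc]
    refine (ih.add ((hasDerivAt_div_log_pow hx (N + 1)).const_mul _)).congr_deriv ?_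
    rw [Nat.factorial_succ]
    push_cast
    ring

theorem continuousOn_inv_log_pow (m : ℕ) :
    ContinuousOn (fun t => 1 / log t ^ m) (Ioi 1) :=
  continuousOn_const.div
    ((continuousOn_log.mono fun t (ht : 1 < t) =>
      ne_of_gt (lt_trans one_pos ht)).pow m)
    fun _ ht => pow_ne_zero _ (log_pos ht).ne'

theorem intervalIntegrable_inv_log_pow {a b : ℝ} (ha : 1 < a) (hb : 1 < b) (m : ℕ) :
    IntervalIntegrable (fun t => 1 / log t ^ m) volume a b :=
  ((continuousOn_inv_log_pow m).mono fun _ ht =>
    lt_of_lt_of_le (lt_min ha hb) ht.1).intervalIntegrable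

theorem integral_inv_log_eq {x : ℝ} (hx : 2 ≤ x) (N : ℕ) :
    ∫ t in (2 : ℝ)..x, 1 / log t =
      liSum N x - liSum N 2 + N.factorial * ∫ t in (2 : ℝ)..x, 1 / log t ^ (N + 1) := by
  have h1 := intervalIntegrable_inv_log_pow (b := x) one_lt_two (by linarith) 1
  simp only [pow_one] at h1
  have h2 := intervalIntegrable_inv_log_pow (b := x) one_lt_two (by linarith) (N + 1)
  have h := integral_eq_sub_of_hasDerivAt (f := liSum N)
    (fun t ht => hasDerivAt_liSum (lt_of_lt_of_le one_lt_two (uIcc_of_le hx ▸ ht).1) N)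
    (by simpa only [mul_one_div] using h1.sub (h2.const_mul (N.factorial : ℝ)))
  rw [← h, ← intervalIntegral.integral_const_mul]
  simp only [mul_one_div]
  rw [intervalIntegral.integral_sub h1
    (by simpa only [mul_one_div] using h2.const_mul (N.factorial : ℝ))]
  ring

theorem isBigO_const_div_log_pow (C : ℝ) (m : ℕ) :
    (fun _ : ℝ => C) =O[atTop] fun x => x / log x ^ m := by
  have h := (isLittleO_pow_log_id_atTop (n := m)).def one_pos
  refine IsBigO.of_bound |C| ?_
  filter_upwards [h, eventually_gt_atTop 1] with x hx hx1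
  have hp : 0 < log x ^ m := pow_pos (log_pos hx1) m
  simp only [norm_eq_abs, id_eq, one_mul, abs_of_pos hp, abs_of_pos (one_pos.trans hx1)] at hx ⊢
  rw [abs_of_pos (div_pos (one_pos.trans hx1) hp)]
  exact le_mul_of_one_le_right (abs_nonneg C) ((one_le_div hp).2 hx)

theorem isBigO_integral_inv_log_pow (m : ℕ) :
    (fun x => ∫ t in (2 : ℝ)..x, 1 / log t ^ m) =O[atTop] fun x => x / log x ^ m := by
  obtain ⟨a, ha⟩ : ∃ a, a = max 2 (exp (2 * m)) := ⟨_, rfl⟩
  have ha2 : 2 ≤ a := ha ▸ le_max_left _ _
  obtain ⟨C, hC⟩ : ∃ C, C = ∫ t in (2 : ℝ)..a, 1 / log t ^ m := ⟨_, rfl⟩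
  have hkey : (fun x => ∫ t in a..x, 1 / log t ^ m) =O[atTop] fun x => x / log x ^ m := by
    refine IsBigO.of_bound 2 ?_
    filter_upwards [eventually_ge_atTop a] with x hx
    have hx1 : 1 < x := by linarith
    have hp : ∀ t, 2 ≤ t → 0 < log t ^ m := fun t ht => pow_pos (log_pos (by linarith)) m
    have hnn : 0 ≤ ∫ t in a..x, 1 / log t ^ m := integral_nonneg hx fun t ht =>
      (one_div_pos.2 (hp t (ha2.trans ht.1))).le
    rw [norm_of_nonneg hnn,
      norm_of_nonneg (div_nonneg (by linarith) (hp x (by linarith)).le)]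
    have hint := intervalIntegrable_inv_log_pow (a := a) (b := x) (by linarith) hx1
    have hd : IntervalIntegrable (fun t => 2 * (1 / log t ^ m - m / log t ^ (m + 1))) volume a x :=
      ((hint m).sub
        (by simpa only [mul_one_div] using (hint (m + 1)).const_mul (m : ℝ))).const_mul 2
    calc ∫ t in a..x, 1 / log t ^ m
        ≤ ∫ t in a..x, 2 * (1 / log t ^ m - m / log t ^ (m + 1)) := by
          refine integral_mono_on hx (hint m) hd fun t ht => ?_
          have ht2 : 2 ≤ t := ha2.trans ht.1
          have hL : 0 < log t := log_pos (by linarith)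
          have hm : 2 * (m : ℝ) ≤ log t := by
            rw [← log_exp (2 * (m : ℝ))]
            exact log_le_log (exp_pos _) ((le_max_right _ _).trans (ha ▸ ht.1))
          have h2 : (m : ℝ) / log t ^ (m + 1) ≤ 1 / log t ^ m / 2 := by
            rw [div_div, div_le_div_iff₀ (by positivity) (by positivity), pow_succ]
            nlinarith [pow_pos hL m]
          linarith
      _ = 2 * x / log x ^ m - 2 * a / log a ^ m := by
          refine (integral_eq_sub_of_hasDerivAt (f := fun t => 2 * t / log t ^ m) (fun t ht => ?_)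
            hd).trans rfl
          have h := (hasDerivAt_div_log_pow
            (lt_of_lt_of_le (by linarith) (uIcc_of_le hx ▸ ht).1 : 1 < t) m).const_mul 2
          simpa only [← mul_div_assoc] using h
      _ ≤ 2 * (x / log x ^ m) := by
          have : 0 ≤ 2 * a / log a ^ m := div_nonneg (by linarith) (hp a ha2).le
          linarith [mul_div_assoc 2 x (log x ^ m)]
  refine ((isBigO_const_div_log_pow C m).add hkey).congr' ?_ EventuallyEq.rfl
  filter_upwards [eventually_ge_atTop a] with x hx
  rw [hC]
  exact integral_add_adjacent_intervals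
    (intervalIntegrable_inv_log_pow one_lt_two (by linarith) m)
    (intervalIntegrable_inv_log_pow (by linarith) (by linarith) m)

theorem isBigO_exp_neg_sqrt_log {c : ℝ} (hc : 0 < c) (m : ℕ) :
    (fun x => x * exp (-(c * √(log x)))) =O[atTop] fun x => x / log x ^ m := by
  have h : Tendsto (fun x => √(log x) ^ ((2 * m : ℕ) : ℝ) * exp (-c * √(log x))) atTop (𝓝 0) :=
    (tendsto_rpow_mul_exp_neg_mul_atTop_nhds_zero _ c hc).comp
      (tendsto_sqrt_atTop.comp tendsto_log_atTop)
  refine IsBigO.of_bound 1 ?_
  filter_upwards [h.eventually (eventually_le_nhds one_pos), eventually_gt_atTop 1] with x hx hx1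
  rw [rpow_natCast, pow_mul, sq_sqrt (log_pos hx1).le, neg_mul] at hx
  have hp : 0 < log x ^ m := pow_pos (log_pos hx1) m
  rw [norm_of_nonneg (by positivity), norm_of_nonneg (by positivity), one_mul, le_div_iff₀ hp]
  calc x * exp (-(c * √(log x))) * log x ^ m = x * (log x ^ m * exp (-(c * √(log x)))) := by ring
    _ ≤ x := mul_le_of_le_one_right (by linarith) hx

/-- **The asymptotic expansion of `π`**. -/
theorem isBigO_primeCounting_sub_liSum (N : ℕ) :
    (fun x : ℝ => (Nat.primeCounting ⌊x⌋₊ : ℝ) - liSum N x) =O[atTop]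
      fun x => x / log x ^ (N + 1) := by
  obtain ⟨c, C, hc, hC, hπ⟩ := FA.DLVP.Summary.primeCounting_error
  have h1 : (fun x : ℝ => (Nat.primeCounting ⌊x⌋₊ : ℝ) - ∫ t in (2 : ℝ)..x, 1 / log t) =O[atTop]
      fun x => x / log x ^ (N + 1) := by
    refine IsBigO.trans (IsBigO.of_bound C ?_) (isBigO_exp_neg_sqrt_log hc (N + 1))
    filter_upwards [eventually_ge_atTop 2] with x hx
    rw [norm_eq_abs, norm_of_nonneg (by positivity), ← mul_assoc]
    exact hπ x hx
  refine (h1.add ((isBigO_const_div_log_pow (-liSum N 2) (N + 1)).add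
    ((isBigO_integral_inv_log_pow (N + 1)).const_mul_left (N.factorial : ℝ)))).congr'
      ?_ EventuallyEq.rfl
  filter_upwards [eventually_ge_atTop 2] with x hx
  rw [integral_inv_log_eq hx N]
  ring

end FA.HensleyRichards
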