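import Fermat.Agent.HensleyRichards.Expansion

/-!
# Ramanujan's inequality

`(π x) ^ 2 < (e x / log x) π (x / e)` for all large `x`: the expansions of the two sides agree up
to `x ^ 2 / (log x) ^ 5` and differ by `x ^ 2 / (log x) ^ 6`.
-/

set_option autoImplicit false

noncomputable section

namespace FA.HensleyRichards

open Filter Real Asymptotics
open scoped Topology

/-- The comparison of the two truncated series, `u = 1 / log x` and `v = 1 / (log x - 1)`. -/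
theorem series_sq_lt {u v C : ℝ} (hu : 0 < u) (hu' : u ≤ 1 / 10) (hC : 0 ≤ C)
    (hCu : (1000 + C * 1000 + C ^ 2) * u < 1) (hv : v * (1 - u) = u) :
    (u + u ^ 2 + 2 * u ^ 3 + 6 * u ^ 4 + 24 * u ^ 5 + C * u ^ 6) ^ 2 <
      u * (v + v ^ 2 + 2 * v ^ 3 + 6 * v ^ 4 + 24 * v ^ 5 - C * v ^ 6) := by
  obtain ⟨w, hw⟩ : ∃ w, w = u + u ^ 2 + u ^ 3 + u ^ 4 + u ^ 5 := ⟨_, rfl⟩
  have hv0 : 0 < v := by nlinarith
  have hw0 : 0 ≤ w := by rw [hw]; positivity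
  have hwv : w ≤ v := by nlinarith [pow_pos hu 6]
  have hv2 : v ≤ 10 / 9 * u := by nlinarith
  have hv6 : v ^ 6 ≤ 2 * u ^ 6 := by
    calc v ^ 6 ≤ (10 / 9 * u) ^ 6 := by gcongr
      _ ≤ 2 * u ^ 6 := by rw [mul_pow]; nlinarith [pow_pos hu 6]
  have h2 : u ^ 2 + 2 * u ^ 3 + 3 * u ^ 4 + 4 * u ^ 5 ≤ v ^ 2 := by
    refine le_trans ?_ (pow_le_pow_left₀ hw0 hwv 2)
    rw [hw]
    ring_nf
    nlinarith [pow_pos hu 6, pow_pos hu 7, pow_pos hu 8, pow_pos hu 9, pow_pos hu 10]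
  have h3 : u ^ 3 + 3 * u ^ 4 + 6 * u ^ 5 ≤ v ^ 3 := by
    refine le_trans ?_ (pow_le_pow_left₀ hw0 hwv 3)
    rw [hw]
    ring_nf
    nlinarith [pow_pos hu 6, pow_pos hu 7, pow_pos hu 8, pow_pos hu 9, pow_pos hu 10,
      pow_pos hu 11, pow_pos hu 12, pow_pos hu 13, pow_pos hu 14, pow_pos hu 15]
  have h4 : u ^ 4 + 4 * u ^ 5 ≤ v ^ 4 := by
    refine le_trans ?_ (pow_le_pow_left₀ (by positivity) (show u + u ^ 2 ≤ v by
      rw [hw] at hwv; nlinarith [pow_pos hu 3, pow_pos hu 4, pow_pos hu 5]) 4)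
    nlinarith [pow_pos hu 6, pow_pos hu 7, pow_pos hu 8]
  have h5 : u ^ 5 ≤ v ^ 5 := by
    refine pow_le_pow_left₀ hu.le ?_ 5
    nlinarith
  rw [hw] at hwv
  have hR : u * (u + 2 * u ^ 2 + 5 * u ^ 3 + 16 * u ^ 4 + 65 * u ^ 5 - 2 * C * u ^ 6) ≤
      u * (v + v ^ 2 + 2 * v ^ 3 + 6 * v ^ 4 + 24 * v ^ 5 - C * v ^ 6) := by
    refine mul_le_mul_of_nonneg_left ?_ hu.le
    nlinarith [mul_le_mul_of_nonneg_left hv6 hC]
  refine lt_of_lt_of_le ?_ hR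
  have hp : ∀ k : ℕ, 7 ≤ k → u ^ k ≤ u ^ 7 := fun k hk =>
    pow_le_pow_of_le_one hu.le (by linarith) hk
  have hpos : 0 < u ^ 6 := pow_pos hu 6
  have hkey : (1000 + C * 1000 + C ^ 2) * u ^ 7 < u ^ 6 := by
    calc (1000 + C * 1000 + C ^ 2) * u ^ 7 = ((1000 + C * 1000 + C ^ 2) * u) * u ^ 6 := by ring
      _ < 1 * u ^ 6 := mul_lt_mul_of_pos_right hCu hpos
      _ = u ^ 6 := one_mul _
  have hC2 : 0 ≤ C ^ 2 := sq_nonneg C
  ring_nf
  ring_nf at hkey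
  nlinarith [hp 8 (by norm_num), hp 9 (by norm_num), hp 10 (by norm_num), hp 11 (by norm_num),
    hp 12 (by norm_num), mul_le_mul_of_nonneg_left (hp 8 (by norm_num)) hC,
    mul_le_mul_of_nonneg_left (hp 9 (by norm_num)) hC,
    mul_le_mul_of_nonneg_left (hp 10 (by norm_num)) hC,
    mul_le_mul_of_nonneg_left (hp 11 (by norm_num)) hC,
    mul_le_mul_of_nonneg_left (hp 12 (by norm_num)) hC2]

theorem liSum_five (x : ℝ) :
    liSum 5 x = x * ((log x)⁻¹ + (log x)⁻¹ ^ 2 + 2 * (log x)⁻¹ ^ 3 + 6 * (log x)⁻¹ ^ 4 +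
      24 * (log x)⁻¹ ^ 5) := by
  simp only [liSum, Finset.sum_range_succ, Finset.sum_range_zero, zero_add, Nat.factorial]
  push_cast
  simp only [div_eq_mul_inv, ← inv_pow]
  ring

/-- **Ramanujan's inequality.** -/
theorem eventually_primeCounting_sq_lt : ∀ᶠ x : ℝ in atTop,
    (Nat.primeCounting ⌊x⌋₊ : ℝ) ^ 2 <
      exp 1 * x / log x * Nat.primeCounting ⌊x / exp 1⌋₊ := by
  obtain ⟨C, hC0, hC⟩ := (isBigO_primeCounting_sub_liSum 5).exists_nonneg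
  have hC' := hC.bound
  have hsmall : ∀ᶠ x : ℝ in atTop, max 10 (1000 + C * 1000 + C ^ 2 + 1) ≤ log x :=
    tendsto_log_atTop.eventually_ge_atTop _
  filter_upwards [hC', (tendsto_id.atTop_div_const (exp_pos 1)).eventually hC', hsmall,
    eventually_gt_atTop 0] with x h1 h2 hL hx0
  rw [max_le_iff] at hL
  have hxe : 0 < x / exp 1 := by positivity
  have hlog : log (x / exp 1) = log x - 1 := by rw [log_div hx0.ne' (exp_ne_zero 1), log_exp]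
  simp only [id_eq] at h2
  rw [norm_eq_abs, norm_of_nonneg (div_nonneg hx0.le (pow_nonneg (by linarith) _)),
    liSum_five, abs_le] at h1
  rw [norm_eq_abs, norm_of_nonneg (div_nonneg hxe.le (pow_nonneg (by rw [hlog]; linarith) _)),
    liSum_five, hlog, abs_le] at h2
  obtain ⟨u, hu⟩ : ∃ u, u = (log x)⁻¹ := ⟨_, rfl⟩
  obtain ⟨v, hv⟩ : ∃ v, v = (log x - 1)⁻¹ := ⟨_, rfl⟩
  have hu0 : 0 < u := hu ▸ inv_pos.2 (by linarith)
  have hkey := series_sq_lt (v := v) hu0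
    (by rw [hu, one_div]; exact inv_anti₀ (by norm_num) hL.1) hC0
    (by rw [hu, ← div_eq_mul_inv, div_lt_one (by linarith)]; linarith)
    (by
      have : log x - 1 ≠ 0 := by linarith
      have : log x ≠ 0 := by linarith
      rw [hu, hv]
      field_simp)
  simp only [div_eq_mul_inv x, ← inv_pow, ← hu, Nat.reduceAdd] at h1
  rw [div_eq_mul_inv (x / exp 1) ((log x - 1) ^ (5 + 1)), ← inv_pow, ← hv] at h2
  simp only [Nat.reduceAdd] at h2
  calc (Nat.primeCounting ⌊x⌋₊ : ℝ) ^ 2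
      ≤ (x * (u + u ^ 2 + 2 * u ^ 3 + 6 * u ^ 4 + 24 * u ^ 5 + C * u ^ 6)) ^ 2 :=
        pow_le_pow_left₀ (Nat.cast_nonneg _) (by linarith [h1.2]) 2
    _ = x ^ 2 * (u + u ^ 2 + 2 * u ^ 3 + 6 * u ^ 4 + 24 * u ^ 5 + C * u ^ 6) ^ 2 := mul_pow x _ 2
    _ < x ^ 2 * (u * (v + v ^ 2 + 2 * v ^ 3 + 6 * v ^ 4 + 24 * v ^ 5 - C * v ^ 6)) :=
        mul_lt_mul_of_pos_left hkey (by positivity)
    _ = exp 1 * x / log x *
        (x / exp 1 * (v + v ^ 2 + 2 * v ^ 3 + 6 * v ^ 4 + 24 * v ^ 5 - C * v ^ 6)) := by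
        rw [hu]
        field_simp
    _ ≤ exp 1 * x / log x * Nat.primeCounting ⌊x / exp 1⌋₊ :=
        mul_le_mul_of_nonneg_left (by linarith [h2.1])
          (div_nonneg (by positivity) (by linarith))

end FA.HensleyRichards
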